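import Fermat.Agent.Flat.Hecke.Embed
import Fermat.Agent.Flat.Kummer.Galois
import Fermat.Agent.Flat.ModularCoords
import Fermat.Agent.Flat.Closure

/-!
# Representations over Hecke algebras are finite flat at good primes
-/

set_option autoImplicit false

open CongruenceSubgroup IsLocalRing
open scoped Matrix MatrixGroups
open ModularCurve ModularCurve.Period
open FermatAgent.Period (parRank parabolicCoords parElt)
open FermatAgent.GaloisBasic (Qbar GQ repMatrix repBasis)
open FermatAgent.ES (parGroup padChar galChar)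

noncomputable section

namespace FermatAgent.Flat.Hecke

variable (p : ℕ) [Fact p.Prime] (N : ℕ) [NeZero N] (k : ℕ)

local notation "V" => parabolicHoms ℤ_[p] (Gamma0 N) ℤ_[p]

/-- The characters of level `p ^ k` coming from `p`-adic homomorphisms. -/
def padRange : Subgroup (parGroup (Gamma0 N) (p ^ k)) :=
  (MonoidHom.mk' (fun ψ : Multiplicative V => padChar p k ψ.toAdd)
    fun a b => ES.padChar_add p k a.toAdd b.toAdd).range

omit [NeZero N] in
/-- Characters of `p`-adic homomorphisms lie in the range. -/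
theorem padChar_mem (ψ : V) : padChar p k ψ ∈ padRange p N k := ⟨Multiplicative.ofAdd ψ, rfl⟩

theorem galChar_mem_padRange (σ : GQ) {φ : parGroup (Gamma0 N) (p ^ k)} (hφ : φ ∈ padRange p N k) :
    galChar (ES.goodLevel_Gamma0 N) (p ^ k) σ φ ∈ padRange p N k := by
  obtain ⟨ψ, rfl⟩ := hφ
  exact ⟨Multiplicative.ofAdd (ES.galPad p σ ψ.toAdd), ES.padChar_galPad p σ ψ.toAdd k⟩

omit [NeZero N] in
/-- The characters of the range kill torsion elements. -/
theorem padRange_torsion {φ : parGroup (Gamma0 N) (p ^ k)} (hφ : φ ∈ padRange p N k) {δ : Gamma0 N}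
    (hδ : IsOfFinOrder δ) : (φ : Gamma0 N →* ℂˣ) δ = 1 := by
  obtain ⟨ψ, rfl⟩ := hφ
  exact ES.padChar_of_isOfFinOrder p k ψ.toAdd hδ

instance instPadRangeAction : DistribMulAction GQ (Additive (padRange p N k)) where
  smul σ x := Additive.ofMul ⟨galChar (ES.goodLevel_Gamma0 N) (p ^ k) σ (x.toMul : _),
    galChar_mem_padRange p N k σ x.toMul.2⟩
  one_smul x := Additive.toMul.injective (Subtype.ext (by
    show galChar _ _ (1 : GQ) _ = _
    rw [map_one]; rfl))
  mul_smul σ τ x := Additive.toMul.injective (Subtype.ext (by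
    show galChar _ _ (σ * τ) _ = galChar _ _ σ (galChar _ _ τ _)
    rw [map_mul]; rfl))
  smul_zero σ := Additive.toMul.injective (Subtype.ext (map_one _))
  smul_add σ x y := Additive.toMul.injective (Subtype.ext (map_mul _ _ _))

/-- The range has a coordinate system at places over `p ∤ N`. -/
theorem exists_padRange_coords {A : ValuationSubring Qbar} (hA : A.LiesOverPrime p)
    (hN : ¬ p ∣ N) :
    ∃ (L : IntermediateField ℚ Qbar) (Φ : Set (Additive (padRange p N k) → Qbar)),
      FiniteDimensional ℚ L ∧ IsGalois ℚ L ∧ IsCoordSystem L A Φ := by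
  have := ES.finite_parGroup (ES.goodLevel_Gamma0 N) (p ^ k)
  obtain ⟨cls, hcls, hequiv⟩ := Kummer.exists_hom_jZero (p ^ k) (padRange p N k)
    (fun φ hφ δ => padRange_torsion p N k hφ) fun σ φ hφ => galChar_mem_padRange p N k σ hφ
  exact exists_isCoordSystem hA hN cls hcls fun σ x => hequiv σ x.toMul

/-- Powers of the modules of level `N` are flat at `p ∤ N`. -/
theorem isFlatAct_padRange (hN : ¬ p ∣ N) (e : ℕ) (J : Type) [Finite J] :
    IsFlatAct p (compAct (Additive (padRange p N e)) J) := by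
  have := ES.finite_parGroup (ES.goodLevel_Gamma0 N) (p ^ e)
  refine ⟨inferInstance, fun A hA => ?_⟩
  obtain ⟨E, Φ, h1, h2, h3⟩ := exists_padRange_coords p N e hA hN
  exact ⟨E, _, h1, h2, IsCoordSystem.restrict
    (M' := EndMod (compAct (Additive (padRange p N e)) J))
    (IsCoordSystem.pi (ι := J) h3) (AddMonoidHom.id (J → Additive (padRange p N e)))
    Function.injective_id fun σ f => rfl⟩

variable {N}

/-- A power of a nilpotent element modulo a finite-index ideal lies in it. -/
theorem exists_pow_mem {T : Type} [CommRing T] [IsLocalRing T] {x : T} (hx : x ∈ maximalIdeal T)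
    (I : Ideal T) [Finite (T ⧸ I)] : ∃ e : ℕ, x ^ e ∈ I := by
  obtain ⟨a, b, hab, he⟩ := Finite.exists_ne_map_eq_of_infinite
    (fun e : ℕ => Ideal.Quotient.mk I (x ^ e))
  wlog hlt : a < b generalizing a b
  · exact this b a hab.symm he.symm (lt_of_le_of_ne (not_lt.1 hlt) hab.symm)
  refine ⟨a, ?_⟩
  obtain ⟨d, rfl⟩ := Nat.exists_eq_add_of_le hlt.le
  have hu : IsUnit (1 - x ^ d) :=
    IsLocalRing.isUnit_one_sub_self_of_mem_nonunits _ ((IsLocalRing.mem_maximalIdeal _).1
      (Ideal.pow_mem_of_mem _ hx d (by omega)))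
  have h1 : x ^ a * (1 - x ^ d) ∈ I := by
    rw [mul_sub, mul_one, ← pow_add]
    exact Ideal.Quotient.eq.1 he
  obtain ⟨u, hu⟩ := hu
  have h2 := I.mul_mem_right (↑u⁻¹ : T) h1
  rwa [mul_assoc, ← hu, Units.mul_inv, mul_one] at h2

omit [Fact p.Prime] in
/-- The matrix ring acts on a level quotient compatibly with the Galois action. -/
private theorem exists_levelOps {T : Type} [CommRing T] [IsLocalRing T] (ρ : GaloisRepAdic T)
    (I : Ideal T) {e : ℕ} (he : (p : T) ^ e ∈ I) :
    ∃ act : Matrix (Fin 2) (Fin 2) T →+ Module.End T (ρ.V ⧸ (I • (⊤ : Submodule T ρ.V))),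
      (∀ g X x, act (repMatrix ρ g * X) x = ρ.levelAction I g (act X x)) ∧ (∀ x, act 1 x = x) ∧
      ∀ j, e ≤ j → ∀ X x, act (p ^ j • X) x = 0 := by
  let opV : Matrix (Fin 2) (Fin 2) T →ₐ[T] Module.End T ρ.V :=
    (LinearMap.toMatrixAlgEquiv (repBasis ρ)).symm.toAlgHom
  have hopV : ∀ g, opV (repMatrix ρ g) = ρ.ρ g := fun g =>
    (LinearMap.toMatrixAlgEquiv (repBasis ρ)).symm_apply_apply _
  let act : Matrix (Fin 2) (Fin 2) T → Module.End T (ρ.V ⧸ (I • (⊤ : Submodule T ρ.V))) :=
    fun X => Submodule.mapQ _ _ (opV X) (by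
      rw [← Submodule.map_le_iff_le_comap, Submodule.map_smul'']
      exact Submodule.smul_mono le_rfl le_top)
  have hact : ∀ X v, act X (Submodule.Quotient.mk v) = Submodule.Quotient.mk (opV X v) :=
    fun X v => rfl
  refine ⟨AddMonoidHom.mk' act fun X Y => LinearMap.ext fun x => ?_, fun g X x => ?_,
    fun x => ?_, fun j hj X x => ?_⟩ <;> obtain ⟨v, rfl⟩ := Submodule.mkQ_surjective _ x
  · simp only [Submodule.mkQ_apply, hact, map_add, LinearMap.add_apply, Submodule.Quotient.mk_add]
  · show act _ _ = _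
    rw [Submodule.mkQ_apply, hact, map_mul, hopV]
    rfl
  · show act _ _ = _
    rw [Submodule.mkQ_apply, hact, map_one]
    rfl
  · show act _ _ = _
    rw [Submodule.mkQ_apply, hact, map_nsmul, LinearMap.smul_apply, ← Nat.cast_smul_eq_nsmul T,
      Submodule.Quotient.mk_eq_zero]
    refine Submodule.smul_mem_smul ?_ Submodule.mem_top
    rw [Nat.cast_pow, show j = (j - e) + e by omega, pow_add]
    exact I.mul_mem_left _ he

/-- The columns of tuples of lattice matrices, as characters of level `p ^ k`. -/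
private theorem exists_colHom {B : Submodule ℤ_[p] (LatMat p N)}
    (hgB : ∀ g, ∀ b ∈ B, ES.galMat p N g * b ∈ B) (ι : Type) :
    ∃ q : (ι → B) →+ (ι × Fin (parRank (Gamma0 N)) → Additive (padRange p N k)),
      (∀ g b, q (fun x => ⟨_, hgB g (b x) (b x).2⟩) = g • q b) ∧
      ∀ b, q b = 0 → ∀ x, ∃ f, (b x : LatMat p N) = (p : ℤ_[p]) ^ k • f := by
  set C := parabolicCoords (Gamma0 N) ℤ_[p] ℤ_[p]
  let q : (ι → B) →+ (ι × Fin (parRank (Gamma0 N)) → Additive (padRange p N k)) :=
    { toFun := fun b xj => Additive.ofMul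
        ⟨padChar p k (C.symm ((b xj.1 : LatMat p N)ᵀ xj.2)), padChar_mem p N _ _⟩
      map_zero' := funext fun xj => Additive.toMul.injective (Subtype.ext (by
        show padChar p k (C.symm ((0 : LatMat p N)ᵀ xj.2)) = 1
        have h := ES.padChar_add p k (0 : parabolicHoms ℤ_[p] (Gamma0 N) ℤ_[p]) 0
        rw [add_zero, left_eq_mul] at h
        rw [show (0 : LatMat p N)ᵀ xj.2 = 0 from rfl, map_zero, h]))
      map_add' := fun b b' => funext fun xj => Additive.toMul.injective (Subtype.ext (by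
        show padChar p k (C.symm (((b xj.1 : LatMat p N) + (b' xj.1 : LatMat p N))ᵀ xj.2)) =
          padChar p k (C.symm ((b xj.1 : LatMat p N)ᵀ xj.2)) *
            padChar p k (C.symm ((b' xj.1 : LatMat p N)ᵀ xj.2))
        rw [← ES.padChar_add, ← map_add]
        rfl)) }
  refine ⟨q, fun g b => funext fun xj => Additive.toMul.injective (Subtype.ext ?_),
    fun b hb x => exists_smul_of_dvd p N fun i j => ?_⟩
  · show padChar p k (C.symm ((ES.galMat p N g * (b xj.1 : LatMat p N))ᵀ xj.2)) =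
      galChar (ES.goodLevel_Gamma0 N) (p ^ k) g
        (padChar p k (C.symm ((b xj.1 : LatMat p N)ᵀ xj.2)))
    rw [← ES.padChar_galPad]
    congr 1
    refine C.injective ?_
    rw [← ES.galMat_mulVec, LinearEquiv.apply_symm_apply, LinearEquiv.apply_symm_apply]
    rfl
  · have h0 : (padChar p k (C.symm ((b x : LatMat p N)ᵀ j)) : Gamma0 N →* ℂˣ) = 1 :=
      congrArg (fun z : Additive (padRange p N k) =>
        ((z.toMul : parGroup (Gamma0 N) (p ^ k)) : Gamma0 N →* ℂˣ)) (congrFun hb (x, j))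
    have h1 := DFunLike.congr_fun h0 (parElt (Gamma0 N) i)
    rw [ES.padChar_apply, MonoidHom.one_apply, ES.zU_ne_iff, ← RingHom.mem_ker,
      PadicInt.ker_toZModPow, Ideal.mem_span_singleton] at h1
    have h2 : C (C.symm ((b x : LatMat p N)ᵀ j)) i = (b x : LatMat p N) i j := by
      rw [LinearEquiv.apply_symm_apply]; rfl
    rw [← h2]
    exact h1

/-- The representation over a Hecke algebra is finite flat at `p ∤ N`: each finite level of it is
the group of points of a finite flat group scheme over `ℤ_(p)`, being a quotient of the image in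
a power of the `p ^ k`-torsion classes of level `N`. -/
theorem exists_level_model {Sf : Finset ℕ} {O : Type} [CommRing O] [IsDomain O]
    [IsDiscreteValuationRing O] [IsAdicComplete (maximalIdeal O) O]
    {θ : CuspForm.heckeAlgebra N 2 (↑Sf : Set ℕ) →+* ResidueField O}
    {T : Type} [CommRing T] [IsLocalRing T] [IsNoetherianRing T]
    [IsAdicComplete (maximalIdeal T) T] [Algebra O T] [IsLocalHom (algebraMap O T)]
    [Module.Finite O T] [Module.Free O T]
    (H : CuspForm.HeckeGaloisRepDatum N (↑Sf : Set ℕ) O θ T)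
    (hp2 : p ≠ 2) (hp𝒪 : (p : O) ∈ maximalIdeal O) (hpN : ¬ p ∣ N) (hpS : p ∈ Sf)
    (hNS : ∀ q : ℕ, q.Prime → q ∣ N → q ∈ Sf) (I : Ideal T) [Finite (T ⧸ I)] :
    HasFlatModel p (H.ρ.V ⧸ (I • (⊤ : Submodule T H.ρ.V)))
      (fun σ x => H.ρ.levelAction I σ x) := by
  classical
  obtain ⟨B, Φ, h1, hgB, hΦ1, hΦg⟩ := exists_span_hom p hpS hNS H hp2 hp𝒪
  obtain ⟨c, hc⟩ := exists_artinRees p B
  have hpT : (p : T) ∈ maximalIdeal T := by
    rw [← map_natCast (algebraMap O T)]
    exact map_nonunit (algebraMap O T) _ hp𝒪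
  obtain ⟨e, he⟩ := exists_pow_mem hpT I
  obtain ⟨act, hactmul, hactone, hactzero⟩ := exists_levelOps p H.ρ I he
  let Q : Type := H.ρ.V ⧸ (I • (⊤ : Submodule T H.ρ.V))
  have : Module.Finite (T ⧸ I) Q := Module.Finite.of_restrictScalars_finite T (T ⧸ I) Q
  have : Finite Q := Module.finite_of_finite (T ⧸ I)
  have : Fintype Q := Fintype.ofFinite Q
  let tot : (Q → B) →+ Q := AddMonoidHom.mk' (fun b => ∑ x, act (Φ (b x)) x) fun b b' => by
    rw [← Finset.sum_add_distrib]
    exact Finset.sum_congr rfl fun x _ => by rw [Pi.add_apply, map_add, map_add]; rfl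
  -- columns
  obtain ⟨q, hqg, hqdiv⟩ := exists_colHom p (e + c) hgB Q
  have hq : ∀ b, q b = 0 → tot b = 0 := fun b hb => by
    refine Finset.sum_eq_zero fun x _ => ?_
    obtain ⟨b', hb', hbe⟩ := hc _ (Nat.le_add_left c e) _ (b x).2 (hqdiv b hb x)
    rw [show b x = p ^ (e + c - c) • (⟨b', hb'⟩ : B) from Subtype.ext (hbe.trans (by
      rw [AddSubmonoidClass.coe_nsmul, ← Nat.cast_smul_eq_nsmul ℤ_[p], Nat.cast_pow])), map_nsmul]
    exact hactzero _ (by omega) _ x
  -- the Galois action
  let gB : GQ → (Q → B) → (Q → B) := fun g b x => ⟨_, hgB g (b x) (b x).2⟩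
  have htotg : ∀ g b, levelEnd H.ρ I g (tot b) = tot (gB g b) := fun g b => by
    show levelEnd H.ρ I g (∑ y, act (Φ (b y)) y) = ∑ y, act (Φ (gB g b y)) y
    rw [map_sum]
    refine Finset.sum_congr rfl fun y _ => ?_
    rw [show Φ (gB g b y) = _ from hΦg g (b y), hactmul]
    rfl
  have htot : Function.Surjective tot := fun v => by
    refine ⟨Pi.single v ⟨1, h1⟩, ?_⟩
    show ∑ x, act (Φ ((Pi.single v (⟨1, h1⟩ : B) : Q → B) x)) x = v
    rw [Finset.sum_eq_single v
      (fun x _ hx => by rw [Pi.single_eq_of_ne hx, map_zero, map_zero]; rfl)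
      (fun hv => absurd (Finset.mem_univ v) hv), Pi.single_eq_same, hΦ1, hactone]
  have hflat : IsFlatAct p (levelEnd H.ρ I) :=
    isFlatAct_of_range (isFlatAct_padRange p N hpN (e + c) (Q × Fin (parRank (Gamma0 N)))) q tot
      htot hq gB hqg htotg
  obtain ⟨A, hA⟩ := GaloisBasic.exists_liesOverPrime (Fact.out : p.Prime)
  obtain ⟨L, Φ₀, hL, hLG, h0⟩ := hflat.2 A hA
  have : Finite (EndMod (levelEnd H.ρ I)) := hflat.1
  exact exists_model hA h0

end FermatAgent.Flat.Hecke
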