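import Fermat.Agent.Flat.Hecke.Alg
import Fermat.Agent.RT.CayleyHamilton
import Fermat.Agent.RT.Traces
import Fermat.Agent.RT.TraceExt
import Fermat.Agent.GaloisBasic.TracePairing

/-!
# Representations over Hecke algebras are subquotients of the lattice

The operators spanned by the Galois group and the Hecke algebra on the lattice map onto those of
the two dimensional representation.
-/

set_option autoImplicit false

open CongruenceSubgroup IsLocalRing
open FermatAgent.Period (parRank)
open FermatAgent.GaloisBasic (Qbar GQ repMatrix)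

noncomputable section

namespace FermatAgent.Flat.Hecke

variable (p : ℕ) [Fact p.Prime] (N : ℕ) [NeZero N] (S : Set ℕ)

/-- The operators commuting with the Hecke algebra. -/
abbrev latEnd : Subalgebra ℤ_[p] (LatMat p N) :=
  Subalgebra.centralizer ℤ_[p] (heckeImg p N S : Set (LatMat p N))

instance instAlgebraLatEnd : Algebra (heckeImg p N S) (latEnd p N S) :=
  RingHom.toAlgebra'
    (Subalgebra.inclusion (S := heckeImg p N S) (T := latEnd p N S) fun x hx =>
      Subalgebra.mem_centralizer_iff ℤ_[p] |>.2 fun y hy =>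
        congrArg (fun z : heckeImg p N S => (z : LatMat p N))
          (mul_comm (⟨y, hy⟩ : heckeImg p N S) ⟨x, hx⟩)).toRingHom
    fun c x => Subtype.ext ((Subalgebra.mem_centralizer_iff ℤ_[p]).1 x.2 _ c.2)

/-- The Galois operators in the centraliser. -/
def latRho : GQ →* latEnd p N S where
  toFun g := ⟨ES.galMat p N g, (Subalgebra.mem_centralizer_iff ℤ_[p]).2 fun _ hy =>
    ((commute_galMat p N S hy g).eq).symm⟩
  map_one' := Subtype.ext (map_one (ES.galMat p N))
  map_mul' g h := Subtype.ext (map_mul (ES.galMat p N) g h)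

theorem latEnd_faithful : Function.Injective (algebraMap (heckeImg p N S) (latEnd p N S)) :=
  fun _ _ h => Subtype.ext (congrArg (fun z : latEnd p N S => (z : LatMat p N)) h)

variable {N} {Sf : Finset ℕ} (hpS : p ∈ Sf) (hNS : ∀ q : ℕ, q.Prime → q ∣ N → q ∈ Sf)

theorem isCayleyHamilton_latRho :
    (latTd p hpS hNS).IsCayleyHamilton (latRho p N (↑Sf : Set ℕ)) := fun _ => Subtype.ext rfl

theorem latTd_complexConjugation : (latTd p hpS hNS).t complexConjugation = 0 := by
  refine Subtype.ext ?_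
  show ES.galTrace N p complexConjugation = 0
  rw [ES.galTrace, ES.padCyclo_complexConjugation, inv_eq_of_mul_eq_one_right
    complexConjugation_mul_self, map_neg, map_one, neg_one_mul, add_neg_cancel]

section Datum

variable {O : Type} [CommRing O] [IsDomain O] [IsDiscreteValuationRing O]
  [IsAdicComplete (maximalIdeal O) O]
  {θ : CuspForm.heckeAlgebra N 2 (↑Sf : Set ℕ) →+* ResidueField O}
  {T : Type} [CommRing T] [IsLocalRing T] [IsNoetherianRing T]
  [IsAdicComplete (maximalIdeal T) T] [Algebra O T] [IsLocalHom (algebraMap O T)]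
  [Module.Finite O T] [Module.Free O T]
  (H : CuspForm.HeckeGaloisRepDatum N (↑Sf : Set ℕ) O θ T)

omit [NeZero N] in
/-- Elements of the Hecke algebra divisible on the lattice by a high power of `p`. -/
theorem exists_artinRees (B : Submodule ℤ_[p] (LatMat p N)) : ∃ c : ℕ, ∀ k, c ≤ k →
    ∀ b ∈ B, (∃ f, b = (p : ℤ_[p]) ^ k • f) → ∃ b' ∈ B, b = (p : ℤ_[p]) ^ (k - c) • b' := by
  obtain ⟨c, hc⟩ := Ideal.exists_pow_inf_eq_pow_smul (Ideal.span {(p : ℤ_[p])}) B
  refine ⟨c, fun k hk b hb ⟨f, hf⟩ => ?_⟩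
  have hmem : b ∈ Ideal.span {(p : ℤ_[p])} ^ k • (⊤ : Submodule ℤ_[p] _) ⊓ B := by
    refine ⟨?_, hb⟩
    rw [hf, Ideal.span_singleton_pow]
    exact Submodule.smul_mem_smul (Ideal.mem_span_singleton_self _) Submodule.mem_top
  rw [hc k hk, Ideal.span_singleton_pow, Submodule.ideal_span_singleton_smul,
    Submodule.mem_smul_pointwise_iff_exists] at hmem
  obtain ⟨z, hz, hzb⟩ := hmem
  exact ⟨z, hz.2, hzb.symm⟩

include hpS hNS in
/-- The Hecke algebra maps to that of the datum, matching the traces. -/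
theorem exists_comparison (hp𝒪 : (p : O) ∈ maximalIdeal O) :
    ∃ τ : heckeImg p N (↑Sf : Set ℕ) →+* T,
      ∀ g, τ ((latTd p hpS hNS).t g) = (repMatrix H.ρ g).trace := by
  have hpT : (p : T) ∈ maximalIdeal T := by
    rw [← map_natCast (algebraMap O T)]
    exact map_nonunit (algebraMap O T) _ hp𝒪
  obtain ⟨ι⟩ := ES.exists_padicRingHom p T hpT
  obtain ⟨τ, hτ, hτι⟩ := exists_heckeImg_hom p N (↑Sf : Set ℕ) ι H.π
  refine ⟨τ, fun g => ?_⟩
  rw [← sub_eq_zero, ← Ideal.mem_bot,
    ← Ideal.iInf_pow_eq_bot_of_isLocalRing (maximalIdeal T) (maximalIdeal.isMaximal T).ne_top,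
    Ideal.mem_iInf]
  intro n
  obtain ⟨c, hc⟩ := exists_artinRees p (Subalgebra.toSubmodule (heckeImg p N (↑Sf : Set ℕ)))
  obtain ⟨L₁, hL₁, h₁⟩ := exists_level p N (n + c)
  obtain ⟨L₂, hL₂, h₂⟩ := GaloisBasic.repMatrix_map_eq_one H.ρ n
  have := hL₁; have := hL₂
  set mk := Ideal.Quotient.mk (maximalIdeal T ^ n)
  have hpow : ∀ x : heckeImg p N (↑Sf : Set ℕ),
      (∃ f, (x : LatMat p N) = (p : ℤ_[p]) ^ (n + c) • f) → mk (τ x) = 0 := fun x hx => by
    obtain ⟨b, hb, hbe⟩ := hc _ (Nat.le_add_left c n) x x.2 hx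
    rw [show x = algebraMap ℤ_[p] _ ((p : ℤ_[p]) ^ (n + c - c)) * ⟨b, hb⟩ from
      Subtype.ext (hbe.trans (Algebra.smul_def _ _)), Ideal.Quotient.eq_zero_iff_mem, map_mul, hτι,
      map_pow, map_natCast, Nat.add_sub_cancel]
    exact Ideal.mul_mem_right _ _ (Ideal.pow_mem_pow hpT n)
  refine (Ideal.Quotient.eq (x := τ _)).1
    (RT.TraceDet.eq_of_frobenius (latTd p hpS hNS) (RT.traceDetRep (repMatrix H.ρ)) (mk.comp τ) mk
      (L₁ ⊔ L₂) (fun σ hσ g => ?_) (fun σ hσ g => ?_) Sf (fun q hq hqS P hP σ hσ => ?_) g).1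
  · obtain ⟨ht, hd⟩ := latTd_congr p hpS hNS h₁
      (IntermediateField.fixingSubgroup_antitone le_sup_left hσ) g
    refine ⟨?_, ?_⟩
    · rw [← sub_eq_zero, ← map_sub]
      exact hpow _ ht
    · rw [← map_one (mk.comp τ), ← sub_eq_zero, ← map_sub]
      exact hpow _ hd
  · have h := h₂ σ (IntermediateField.fixingSubgroup_antitone le_sup_right hσ)
    refine ⟨?_, ?_⟩
    · show mk ((repMatrix H.ρ (g * σ)).trace) = mk ((repMatrix H.ρ g).trace)
      rw [AddMonoidHom.map_trace, AddMonoidHom.map_trace, map_mul]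
      show ((repMatrix H.ρ g * repMatrix H.ρ σ).map mk).trace = _
      rw [Matrix.map_mul, h, mul_one]
    · show mk (repMatrix H.ρ σ).det = 1
      rw [RingHom.map_det, RingHom.mapMatrix_apply, h, Matrix.det_one]
  · have hqN : ¬ q ∣ N := fun h => hqS (hNS q hq h)
    have hqp : q ≠ p := fun h => hqS (h ▸ hpS)
    have hch : (repMatrix H.ρ σ).charpoly =
        Polynomial.X ^ 2 - Polynomial.C (H.π (CuspForm.heckeAlgebra.T hq hqN hqS)) * Polynomial.X +
          Polynomial.C (q : T) := by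
      rw [GaloisBasic.charpoly_repMatrix]; exact H.charpoly_frob q hq hqN hqS P hP σ hσ
    have htr : (repMatrix H.ρ σ).trace = H.π (CuspForm.heckeAlgebra.T hq hqN hqS) := by
      simp [Matrix.trace_eq_neg_charpoly_coeff, hch, Polynomial.coeff_X_pow]
    have hdet : (repMatrix H.ρ σ).det = (q : T) := by
      simp [Matrix.det_eq_sign_charpoly_coeff, hch]
    obtain ⟨-, x, hx, hx'⟩ := ES.exists_hecke_galTrace_pow p H.π (repMatrix H.ρ σ) hq hqN hqS hqp
      hP hσ htr hdet 0
    rw [zero_add, pow_one] at hx hx'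
    refine ⟨congrArg mk ?_, congrArg mk ?_⟩
    · rw [show (latTd p hpS hNS).t σ = ⟨_, Algebra.subset_adjoin ⟨x, rfl⟩⟩ from
        Subtype.ext hx.symm, hτ, hx']
      rfl
    · show τ (algebraMap ℤ_[p] _ (ES.padCyclo p σ)) = (repMatrix H.ρ σ).det
      rw [hτι, ES.padCyclo_frobenius p hq hqp hP hσ, map_natCast, hdet]

/-- The residual representation of the datum has no stable line. -/
theorem residual_irreducible (v : Fin 2 → ResidueField T) (hv : v ≠ 0) :
    ∃ g, ∀ s : ResidueField T, ((repMatrix H.ρ g).map (residue T)).mulVec v ≠ s • v :=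
  RT.exists_mulVec_ne_smul_of_span
    (RT.span_map_eq_top (ES.span_repMatrix_eq_top H.ρ H.residual_absIrr) (residue T)) hv

include hpS hNS in
/-- The operators on the lattice map onto those of the representation. -/
theorem exists_span_hom (hp2 : p ≠ 2) (hp𝒪 : (p : O) ∈ maximalIdeal O) :
    ∃ (B : Submodule ℤ_[p] (LatMat p N)) (Φ : B →+ Matrix (Fin 2) (Fin 2) T) (h1 : 1 ∈ B)
      (hg : ∀ g, ∀ b ∈ B, ES.galMat p N g * b ∈ B), Φ ⟨1, h1⟩ = 1 ∧
        ∀ g (b : B), Φ ⟨_, hg g b b.2⟩ = repMatrix H.ρ g * Φ b := by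
  classical
  obtain ⟨τ, htau⟩ := exists_comparison p hpS hNS H hp𝒪
  set M := repMatrix H.ρ
  set D := latTd p hpS hNS
  -- one half
  obtain ⟨half₀, hhalf₀⟩ : ∃ u : ℤ_[p], 2 * u = 1 := by
    have h : IsUnit (2 : ℤ_[p]) := by
      rw [show (2 : ℤ_[p]) = ((2 : ℕ) : ℤ_[p]) by norm_num, PadicInt.isUnit_iff,
        PadicInt.norm_natCast_eq_one_iff]
      exact (Nat.coprime_primes (Fact.out : p.Prime) Nat.prime_two).2 hp2
    exact h.exists_right_inv
  set half : (heckeImg p N (↑Sf : Set ℕ)) := algebraMap ℤ_[p] (heckeImg p N (↑Sf : Set ℕ)) half₀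
  have h2 : 2 * half = 1 := by
    rw [← map_ofNat (algebraMap ℤ_[p] (heckeImg p N (↑Sf : Set ℕ))) 2, ← map_mul, hhalf₀, map_one]
  have hc := complexConjugation_mul_self
  have htc : D.t complexConjugation = 0 := latTd_complexConjugation p hpS hNS
  have h2' : 2 * τ half = 1 := by rw [← map_ofNat τ 2, ← map_mul, h2, map_one]
  have htc' : (D.push τ).t complexConjugation = 0 := by
    show τ _ = 0; rw [htc, map_zero]
  obtain ⟨g₀, h₀, u, hu⟩ := RT.TraceDet.exists_isUnit_entX (D.push τ) h2' hc htc' (residue T)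
    (fun x hx => (residue_eq_zero_iff x).2 hx) ((residue T).mapMatrix.toMonoidHom.comp M)
    (fun g => by
      show ((M g).map (residue T)).trace = residue T (τ (D.t g))
      rw [htau, Matrix.trace_fin_two, Matrix.trace_fin_two, map_add]
      rfl)
    (residual_irreducible H)
  rw [D.entX_push h2 hc htc τ] at hu
  -- the two extensions
  set extW := RT.TraceDet.extend (T := (heckeImg p N (↑Sf : Set ℕ))) (latRho p N (↑Sf : Set ℕ))
  let extH : MonoidAlgebra (heckeImg p N (↑Sf : Set ℕ)) GQ →+* Matrix (Fin 2) (Fin 2) T :=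
    MonoidAlgebra.liftNCRingHom ((algebraMap T (Matrix (Fin 2) (Fin 2) T)).comp τ) M
      fun x g => Algebra.commutes (τ x) (M g)
  have hextH : ∀ (g : GQ) (a : (heckeImg p N (↑Sf : Set ℕ))),
      extH (MonoidAlgebra.single g a) = τ a • M g := fun g a => by
    show MonoidAlgebra.liftNC _ _ _ = _
    rw [MonoidAlgebra.liftNC_single, Algebra.smul_def]
    rfl
  have htrace : ∀ w, (extH w).trace = τ (D.lin w) := fun w => by
    induction w using MonoidAlgebra.induction_on with
    | of g =>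
      rw [MonoidAlgebra.of_apply, hextH, map_one, one_smul, RT.TraceDet.lin_single, one_mul, htau]
    | add w w' hw hw' => rw [map_add, Matrix.trace_add, hw, hw', map_add, map_add]
    | smul a w hw =>
      rw [LinearMap.map_smul, smul_eq_mul, map_mul τ, ← hw, Algebra.smul_def a w, map_mul extH,
        show algebraMap (heckeImg p N (↑Sf : Set ℕ))
          (MonoidAlgebra (heckeImg p N (↑Sf : Set ℕ)) GQ) a =
          MonoidAlgebra.single 1 a from rfl, hextH,
        map_one, Matrix.smul_mul, one_mul, Matrix.trace_smul, smul_eq_mul]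
  have hker : ∀ z, extW z = 0 → extH z = 0 := fun z hz => by
    have hg : ∀ g, (extH z * M g).trace = 0 := fun g => by
      have h := (isCayleyHamilton_latRho p hpS hNS).entX_mul_lin_eq_zero (g₀ := g₀) (h₀ := h₀) h2
        hc htc (latEnd_faithful p N _) (z := z * MonoidAlgebra.of (heckeImg p N (↑Sf : Set ℕ)) GQ g)
        (show extW (z * MonoidAlgebra.of (heckeImg p N (↑Sf : Set ℕ)) GQ g) = 0 by
          rw [map_mul, hz, zero_mul])
      have h' := congrArg τ h
      rw [map_mul, map_zero] at h'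
      have h0 : τ (D.lin (z * MonoidAlgebra.of (heckeImg p N (↑Sf : Set ℕ)) GQ g)) = 0 := by
        have e : ∀ x y : T, x * u = 1 → x * y = 0 → y = 0 := fun x y hx hxy => by
          rw [← one_mul y, ← hx, mul_right_comm, hxy, zero_mul]
        exact e _ _ hu h'
      rwa [← htrace, map_mul, MonoidAlgebra.of_apply, hextH, map_one, one_smul] at h0
    exact GaloisBasic.eq_zero_of_trace_mul_span (ES.span_repMatrix_eq_top H.ρ H.residual_absIrr) hg
  -- the lattice of operators
  let B : Submodule ℤ_[p] (LatMat p N) :=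
    { carrier := Set.range fun z => ((extW z : latEnd p N (↑Sf : Set ℕ)) : LatMat p N)
      add_mem' := by
        rintro _ _ ⟨z, rfl⟩ ⟨w, rfl⟩
        exact ⟨z + w, by simp only [map_add, AddMemClass.coe_add]⟩
      zero_mem' := ⟨0, by simp only [map_zero, ZeroMemClass.coe_zero]⟩
      smul_mem' := by
        rintro a _ ⟨z, rfl⟩
        refine ⟨algebraMap ℤ_[p] (heckeImg p N (↑Sf : Set ℕ)) a • z, ?_⟩
        simp only [map_smul]
        show ((algebraMap ℤ_[p] (heckeImg p N (↑Sf : Set ℕ)) a : (heckeImg p N (↑Sf : Set ℕ))) :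
          LatMat p N) * _ = _
        rw [Algebra.smul_def]
        rfl }
  have hsel : ∀ b : B, ∃ z, ((extW z : latEnd p N (↑Sf : Set ℕ)) : LatMat p N) = b := fun b => b.2
  choose sel hsel using hsel
  have hext : ∀ b z, ((extW z : latEnd p N (↑Sf : Set ℕ)) : LatMat p N) = b.1 →
      extH (sel b) = extH z := fun b z hz => by
    rw [← sub_eq_zero, ← map_sub]
    refine hker _ (Subtype.ext ?_)
    rw [map_sub, AddSubgroupClass.coe_sub, hsel, hz, sub_self, ZeroMemClass.coe_zero]
  have h1 : (1 : LatMat p N) ∈ B := ⟨1, by simp only [map_one, OneMemClass.coe_one]⟩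
  have hgB : ∀ g, ∀ b ∈ B, ES.galMat p N g * b ∈ B := by
    rintro g _ ⟨z, rfl⟩
    exact ⟨MonoidAlgebra.of (heckeImg p N (↑Sf : Set ℕ)) GQ g * z, by
      simp only [map_mul, extW, RT.TraceDet.extend_of, MulMemClass.coe_mul]; rfl⟩
  refine ⟨B,
    { toFun := fun b => extH (sel b)
      map_zero' := by
        rw [hext 0 0 (by rw [map_zero]; rfl), map_zero]
      map_add' := fun b b' => by
        rw [hext (b + b') (sel b + sel b') (by
          rw [map_add, AddMemClass.coe_add, hsel, hsel]; rfl), map_add] },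
    h1, hgB, ?_, fun g b => ?_⟩
  · show extH (sel ⟨1, h1⟩) = 1
    rw [hext ⟨1, h1⟩ 1 (by rw [map_one]; rfl), map_one]
  · show extH (sel ⟨_, hgB g b b.2⟩) = M g * extH (sel b)
    rw [hext _ (MonoidAlgebra.of (heckeImg p N (↑Sf : Set ℕ)) GQ g * sel b) (by
      rw [map_mul, MulMemClass.coe_mul, hsel]
      simp only [extW, RT.TraceDet.extend_of]; rfl), map_mul, MonoidAlgebra.of_apply, hextH,
      map_one, one_smul]

end Datum

end FermatAgent.Flat.Hecke
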