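import Fermat.Agent.ES.Tate.Unramified
import Fermat.Agent.ES.Tate.Extend
import Fermat.Agent.HM.Gal.TraceDet
import Mathlib.LinearAlgebra.Dimension.Finite
import Mathlib.RingTheory.Adjoin.Basic

/-!
# The trace of Galois in the `p`-adic Hecke algebra
-/

set_option autoImplicit false

open CongruenceSubgroup
open FermatAgent.Period (parRank)
open FermatAgent.GaloisBasic (Qbar GQ)

noncomputable section

namespace FermatAgent.Flat.Hecke

variable (p : ℕ) [Fact p.Prime] (N : ℕ) [NeZero N] (S : Set ℕ)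

/-- Matrices on the lattice of `Γ₀(N)`. -/
abbrev LatMat : Type := Matrix (Fin (parRank (Gamma0 N))) (Fin (parRank (Gamma0 N))) ℤ_[p]

/-- The `p`-adic matrices of the anaemic Hecke algebra. -/
def padMatHom : CuspForm.heckeAlgebra N 2 S →+* LatMat p N :=
  (Int.castRingHom ℤ_[p]).mapMatrix.comp (ES.anMatHom N S)

/-- The `p`-adic Hecke algebra on the lattice. -/
def heckeImg : Subalgebra ℤ_[p] (LatMat p N) :=
  Algebra.adjoin ℤ_[p] (Set.range (padMatHom p N S))

theorem mem_heckeImg_iff {z : LatMat p N} :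
    z ∈ heckeImg p N S ↔ z ∈ Submodule.span ℤ_[p] (Set.range (padMatHom p N S)) := by
  rw [heckeImg, ← Subalgebra.mem_toSubmodule, Algebra.adjoin_eq_span]
  have e : (Submonoid.closure (Set.range (padMatHom p N S)) : Set (LatMat p N)) =
      Set.range (padMatHom p N S) := by
    rw [← RingHom.coe_range, show ((padMatHom p N S).range : Set (LatMat p N)) =
      ((padMatHom p N S).range.toSubmonoid : Set (LatMat p N)) from rfl, Submonoid.closure_eq]
  rw [e]

instance instCommRingHeckeImg : CommRing (heckeImg p N S) :=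
  { (inferInstance : Ring (heckeImg p N S)) with
    mul_comm := fun a b => Subtype.ext (Commute.eq
      (Algebra.commute_of_mem_adjoin_of_forall_mem_commute b.2 fun x hx =>
        (Algebra.commute_of_mem_adjoin_of_forall_mem_commute a.2 fun y hy => by
          obtain ⟨u, rfl⟩ := hx
          obtain ⟨w, rfl⟩ := hy
          exact (Commute.all u w).map (padMatHom p N S)).symm)) }

/-- The Hecke algebra commutes with Galois. -/
theorem commute_galMat {z : LatMat p N} (hz : z ∈ heckeImg p N S) (g : GQ) :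
    Commute (ES.galMat p N g) z :=
  Algebra.commute_of_mem_adjoin_of_forall_mem_commute hz fun x hx => by
    obtain ⟨u, rfl⟩ := hx
    exact ES.galMat_commute p _ g

variable (Sf : Finset ℕ)

/-- The cyclotomic character as scalar matrices. -/
def cycloMat : GQ →* LatMat p N :=
  (algebraMap ℤ_[p] (LatMat p N)).toMonoidHom.comp (ES.padCyclo p)

omit [NeZero N] in
theorem cycloMat_commute (g : GQ) (a : LatMat p N) : Commute (cycloMat p N g) a :=
  Algebra.commutes (ES.padCyclo p g) a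

theorem cycloMat_mem (g : GQ) : cycloMat p N g ∈ heckeImg p N S :=
  Subalgebra.algebraMap_mem _ _

omit [NeZero N] in
/-- A matrix divisible entrywise by `p ^ k` is a multiple of `p ^ k`. -/
theorem exists_smul_of_dvd {k : ℕ} {Z : LatMat p N}
    (h : ∀ i j, (p : ℤ_[p]) ^ k ∣ Z i j) : ∃ f, Z = (p : ℤ_[p]) ^ k • f := by
  choose f hf using h
  exact ⟨Matrix.of f, Matrix.ext fun i j => hf i j⟩

/-- An open subgroup acts trivially on the lattice and by the character modulo `p ^ k`. -/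
theorem exists_level (k : ℕ) :
    ∃ L : IntermediateField ℚ Qbar, FiniteDimensional ℚ L ∧ ∀ τ ∈ L.fixingSubgroup,
      (∃ f, ES.galMat p N τ = 1 + (p : ℤ_[p]) ^ k • f) ∧
        ∃ f, cycloMat p N τ = 1 + (p : ℤ_[p]) ^ k • f := by
  obtain ⟨L₁, hL₁, h₁⟩ := ES.galMat_continuous (N := N) p k
  obtain ⟨L₂, hL₂, h₂⟩ := ES.padCyclo_continuous p k
  refine ⟨L₁ ⊔ L₂, inferInstance, fun τ hτ => ?_⟩
  have hfix := (IntermediateField.mem_fixingSubgroup_iff _ τ).mp hτ
  obtain ⟨f, hf⟩ := exists_smul_of_dvd p N (h₁ τ fun x hx => hfix x ((le_sup_left : L₁ ≤ _) hx))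
  obtain ⟨c, hc⟩ := h₂ τ fun x hx => hfix x ((le_sup_right : L₂ ≤ _) hx)
  refine ⟨⟨f, by rw [← hf, add_sub_cancel]⟩, algebraMap ℤ_[p] _ c, ?_⟩
  show algebraMap ℤ_[p] (LatMat p N) _ = _
  rw [Algebra.smul_def, ← map_mul, ← hc, map_sub, map_one, add_sub_cancel]
  rfl

variable {N} {Sf} in
/-- The trace of Galois lies in the Hecke algebra. -/
theorem galTrace_mem (hpS : p ∈ Sf) (hNS : ∀ q : ℕ, q.Prime → q ∣ N → q ∈ Sf) (g : GQ) :
    ES.galTrace N p g ∈ heckeImg p N (↑Sf : Set ℕ) := by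
  refine HM.traceFun_mem (R := ℤ_[p]) (ρ := ES.galMat p N)
    (d := cycloMat p N) (cycloMat_commute p N) (heckeImg p N _) (cycloMat_mem p N _)
    (π := (p : ℤ_[p])) ?_ Sf ?_ (exists_level p N) g
  · rw [IsLocalRing.mem_maximalIdeal]
    exact PadicInt.p_nonunit
  · intro q hq hqS P hP σ hσ
    have hqN : ¬ q ∣ N := fun h => hqS (hNS q hq h)
    have hqp : q ≠ p := fun h => hqS (h ▸ hpS)
    obtain ⟨-, x, hx, -⟩ := ES.exists_hecke_galTrace_pow p
      (RingHom.id (CuspForm.heckeAlgebra N 2 (↑Sf : Set ℕ)))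
      !![CuspForm.heckeAlgebra.T hq hqN hqS, -(q : CuspForm.heckeAlgebra N 2 (↑Sf : Set ℕ)); 1, 0]
      hq hqN hqS hqp hP hσ (by simp [Matrix.trace_fin_two]) (by simp [Matrix.det_fin_two]) 0
    rw [zero_add, pow_one] at hx
    show ES.galTrace N p σ ∈ _
    rw [← hx]
    exact Algebra.subset_adjoin ⟨x, rfl⟩

variable {N} {Sf} in
/-- The trace and determinant of the Galois action with values in the Hecke algebra. -/
def latTd (hpS : p ∈ Sf) (hNS : ∀ q : ℕ, q.Prime → q ∣ N → q ∈ Sf) :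
    RT.TraceDet GQ (heckeImg p N (↑Sf : Set ℕ)) :=
  HM.traceDetOf (ρ := ES.galMat p N)
    (dT := (algebraMap ℤ_[p] (heckeImg p N (↑Sf : Set ℕ))).toMonoidHom.comp (ES.padCyclo p))
    (heckeImg p N (↑Sf : Set ℕ)).val.toRingHom Subtype.val_injective
    (fun g a => Algebra.commutes (ES.padCyclo p g) a)
    (fun x g => (commute_galMat p N _ x.2 g).symm)
    (fun g => ⟨_, galTrace_mem p hpS hNS g⟩) fun _ => rfl

variable {N} {Sf} in
/-- Trace and determinant are congruent along an element congruent to one. -/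
theorem latTd_congr (hpS : p ∈ Sf) (hNS : ∀ q : ℕ, q.Prime → q ∣ N → q ∈ Sf) {m : ℕ}
    {L : IntermediateField ℚ Qbar}
    (h : ∀ τ ∈ L.fixingSubgroup, (∃ f, ES.galMat p N τ = 1 + (p : ℤ_[p]) ^ m • f) ∧
      ∃ f, cycloMat p N τ = 1 + (p : ℤ_[p]) ^ m • f) {σ : GQ} (hσ : σ ∈ L.fixingSubgroup) (g : GQ) :
    (∃ f, (((latTd p hpS hNS).t (g * σ) - (latTd p hpS hNS).t g : heckeImg p N (↑Sf : Set ℕ)) :
        LatMat p N) = (p : ℤ_[p]) ^ m • f) ∧
      ∃ f, (((latTd p hpS hNS).d σ - 1 : heckeImg p N (↑Sf : Set ℕ)) : LatMat p N) =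
        (p : ℤ_[p]) ^ m • f := by
  obtain ⟨⟨f1, hf1⟩, f2, hf2⟩ := h σ hσ
  obtain ⟨⟨f3, hf3⟩, -⟩ := h σ⁻¹ (inv_mem hσ)
  refine ⟨⟨ES.galMat p N g * f1 +
    cycloMat p N g * f2 * (ES.galMat p N σ⁻¹ * ES.galMat p N g⁻¹) +
    cycloMat p N g * (f3 * ES.galMat p N g⁻¹), ?_⟩, f2, ?_⟩
  · show (ES.galMat p N (g * σ) + cycloMat p N (g * σ) * ES.galMat p N (g * σ)⁻¹) -
      (ES.galMat p N g + cycloMat p N g * ES.galMat p N g⁻¹) = _
    rw [mul_inv_rev, map_mul, map_mul, map_mul, hf1, hf2, hf3]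
    simp only [mul_add, add_mul, mul_one, one_mul, smul_add, mul_smul_comm, smul_mul_assoc]
    abel
  · show cycloMat p N σ - 1 = _
    rw [hf2, add_sub_cancel_left]

/-- Extending a character of the Hecke algebra to its `p`-adic completion. -/
theorem exists_heckeImg_hom {T : Type} [CommRing T] (ι : ℤ_[p] →+* T)
    (π : CuspForm.heckeAlgebra N 2 S →+* T) :
    ∃ τ : heckeImg p N S →+* T, (∀ x, τ ⟨_, Algebra.subset_adjoin ⟨x, rfl⟩⟩ = π x) ∧
      ∀ a, τ (algebraMap ℤ_[p] _ a) = ι a := by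
  classical
  let : Algebra ℤ_[p] T := ι.toAlgebra
  have hinj : Function.Injective (ES.anMatHom N S) := (ES.parMatHom_injective N).comp
    (Subalgebra.inclusion_injective _)
  let f : CuspForm.heckeAlgebra N 2 S →ₗ[ℤ]
      Matrix (Fin (parRank (Gamma0 N))) (Fin (parRank (Gamma0 N))) ℤ :=
    (ES.anMatHom N S).toAddMonoidHom.toIntLinearMap
  have : Module.Finite ℤ (CuspForm.heckeAlgebra N 2 S) := Module.Finite.of_injective f hinj
  have : Module.IsTorsionFree ℤ (CuspForm.heckeAlgebra N 2 S) :=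
    hinj.moduleIsTorsionFree f (map_smul f)
  have : Module.Free ℤ (CuspForm.heckeAlgebra N 2 S) := Module.free_of_finite_type_torsion_free'
  set b := Module.Free.chooseBasis ℤ (CuspForm.heckeAlgebra N 2 S)
  have := Module.Free.ChooseBasisIndex.fintype ℤ (CuspForm.heckeAlgebra N 2 S)
  set v : _ → heckeImg p N S := fun i => ⟨_, Algebra.subset_adjoin ⟨b i, rfl⟩⟩
  have hli : LinearIndependent ℤ_[p] v := by
    rw [Fintype.linearIndependent_iff]
    intro a ha i
    obtain ⟨c, hc⟩ := ES.exists_dvd_bound (N := N) (S := S) p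
    refine PadicInt.ext_of_toZModPow.mp fun k => ?_
    set K := k + c
    set n : _ → ℤ := fun i => ((PadicInt.toZModPow K (a i)).val : ℤ) with hn
    have hn' : ∀ i, ((n i : ℤ) : ZMod (p ^ K)) = PadicInt.toZModPow K (a i) := fun i => by
      rw [hn]; push_cast; rw [ZMod.natCast_zmod_val]
    have hdvd : ∀ r s, (p : ℤ) ^ K ∣ ES.anMatHom N S (∑ i, n i • b i) r s := fun r s => by
      have h0 := congrFun (congrFun (congrArg (fun z : heckeImg p N S => (z : LatMat p N)) ha) r) s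
      have h1 := congrArg (PadicInt.toZModPow K) h0
      simp only [AddSubmonoidClass.coe_finsetSum, SetLike.val_smul, Matrix.sum_apply,
        Matrix.smul_apply, smul_eq_mul, ZeroMemClass.coe_zero, Matrix.zero_apply, map_sum,
        map_mul, map_zero] at h1
      rw [← Nat.cast_pow, ← ZMod.intCast_zmod_eq_zero_iff_dvd, map_sum, Matrix.sum_apply,
        Int.cast_sum]
      refine Eq.trans (Finset.sum_congr rfl fun j _ => ?_) h1
      rw [map_zsmul, Matrix.smul_apply, smul_eq_mul, Int.cast_mul, hn']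
      simp [v, padMatHom]
    obtain ⟨y, hy⟩ := hc K (Nat.le_add_left c k) _ hdvd
    have h2 := congrArg (fun z => (b.repr z i : ℤ)) hy
    simp only [b.repr_sum_self] at h2
    rw [show (p : CuspForm.heckeAlgebra N 2 S) ^ (K - c) * y = ((p : ℤ) ^ (K - c)) • y by
      rw [zsmul_eq_mul]; push_cast; rfl, map_zsmul, Finsupp.smul_apply, smul_eq_mul,
      Nat.add_sub_cancel] at h2
    rw [map_zero, ← PadicInt.zmod_cast_comp_toZModPow k K (Nat.le_add_right k c),
      RingHom.comp_apply, ← hn', map_intCast, h2]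
    push_cast
    rw [← Nat.cast_pow, ZMod.natCast_self, zero_mul]
  have hspan : ⊤ ≤ Submodule.span ℤ_[p] (Set.range v) := by
    rintro ⟨z, hz⟩ -
    have hz' := (mem_heckeImg_iff p N S).1 hz
    have key : ∀ z ∈ Submodule.span ℤ_[p] (Set.range (padMatHom p N S)),
        z ∈ (Submodule.span ℤ_[p] (Set.range v)).map (heckeImg p N S).val.toLinearMap := by
      refine fun z hz => Submodule.span_le.2 ?_ hz
      rintro _ ⟨x, rfl⟩
      rw [← b.sum_repr x, map_sum]
      refine Submodule.sum_mem _ fun i _ => ?_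
      rw [map_zsmul, ← Int.cast_smul_eq_zsmul ℤ_[p]]
      exact Submodule.smul_mem _ _ ⟨v i, Submodule.subset_span ⟨i, rfl⟩, rfl⟩
    obtain ⟨w, hw, hwz⟩ := key z hz'
    exact (Subtype.ext hwz : w = ⟨z, hz⟩) ▸ hw
  set bR := Module.Basis.mk hli hspan
  let τ₀ : heckeImg p N S →ₗ[ℤ_[p]] T := bR.constr ℤ_[p] fun i => π (b i)
  have hτ : ∀ x, τ₀ ⟨_, Algebra.subset_adjoin ⟨x, rfl⟩⟩ = π x := fun x => by
    have e : (⟨_, Algebra.subset_adjoin ⟨x, rfl⟩⟩ : heckeImg p N S) =
        ∑ i, ((b.repr x i : ℤ) : ℤ_[p]) • bR i := Subtype.ext (by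
      show padMatHom p N S x = _
      conv_lhs => rw [← b.sum_repr x]
      rw [map_sum, AddSubmonoidClass.coe_finsetSum]
      refine Finset.sum_congr rfl fun i _ => ?_
      rw [SetLike.val_smul, Module.Basis.mk_apply, map_zsmul, Int.cast_smul_eq_zsmul])
    rw [e, map_sum]
    conv_rhs => rw [← b.sum_repr x, map_sum]
    refine Finset.sum_congr rfl fun i _ => ?_
    rw [map_smul, Module.Basis.constr_basis, Int.cast_smul_eq_zsmul, map_zsmul]
  have hone : τ₀ 1 = 1 := by
    rw [show (1 : heckeImg p N S) = ⟨_, Algebra.subset_adjoin ⟨1, rfl⟩⟩ from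
      Subtype.ext (map_one (padMatHom p N S)).symm, hτ, map_one]
  have hmul : ∀ x y, τ₀ (x * y) = τ₀ x * τ₀ y := by
    have h : (LinearMap.mul ℤ_[p] (heckeImg p N S)).compr₂ τ₀ =
        (LinearMap.mul ℤ_[p] T).compl₁₂ τ₀ τ₀ := by
      refine bR.ext fun i => bR.ext fun j => ?_
      simp only [LinearMap.compr₂_apply, LinearMap.compl₁₂_apply, LinearMap.mul_apply',
        Module.Basis.mk_apply, bR]
      rw [hτ, hτ, show v i * v j = ⟨_, Algebra.subset_adjoin ⟨b i * b j, rfl⟩⟩ from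
        Subtype.ext (map_mul (padMatHom p N S) _ _).symm, hτ, map_mul]
    exact fun x y => LinearMap.congr_fun₂ h x y
  refine ⟨{ toFun := τ₀, map_one' := hone, map_mul' := hmul, map_zero' := map_zero τ₀,
            map_add' := map_add τ₀ }, hτ, fun a => ?_⟩
  show τ₀ (algebraMap ℤ_[p] _ a) = ι a
  rw [Algebra.algebraMap_eq_smul_one, map_smul, hone, Algebra.smul_def, mul_one]
  rfl

end FermatAgent.Flat.Hecke
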